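import Fermat.Prelude.Def_GaloisRep_Residual
import Mathlib.LinearAlgebra.Matrix.ToLin
import Mathlib.LinearAlgebra.Trace

/-!
# Representations reducible over a subgroup of index two

If `ρ` stays irreducible over `K` but has a line over `K` stable under a subgroup `G` of index
two, then `G` acts diagonally and its complement antidiagonally in a suitable basis, so traces
vanish outside `G`; in characteristic other than two, the kernel lies in `G`, unipotent elements
act trivially, and elements of `G` commuting with an element outside `G` are scalars.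
-/

set_option autoImplicit false

open Module

namespace Fermat.Agent.EC.Rep

local notation "GQ" => AlgebraicClosure ℚ ≃ₐ[ℚ] AlgebraicClosure ℚ

variable {k : Type} [Field k] (ρ : ResidualGaloisRep k) (K : Type) [Field K] [Algebra k K]
  (G : Subgroup GQ)

/-- `ρ` has, over `K`, a proper nonzero subspace stable under the index two subgroup `G`, although
it is irreducible over `K`. -/
structure IsInducedFrom : Prop where
  index_eq : G.index = 2
  irreducible : (ρ.baseChange K).IsIrreducible
  exists_stable : ∃ V : Submodule K (ρ.baseChange K).V,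
    (∀ σ ∈ G, ∀ x ∈ V, (ρ.baseChange K).ρ σ x ∈ V) ∧ V ≠ ⊥ ∧ V ≠ ⊤

variable {ρ K G}

/-- A basis in which `G` acts diagonally and its complement antidiagonally. -/
theorem IsInducedFrom.exists_basis (h : IsInducedFrom ρ K G) :
    ∃ f : Basis (Fin 2) K (ρ.baseChange K).V,
      (∀ σ ∈ G, ∃ a b : K, (ρ.baseChange K).ρ σ (f 0) = a • f 0 ∧
        (ρ.baseChange K).ρ σ (f 1) = b • f 1) ∧
      ∀ σ, σ ∉ G → ∃ c d : K, (ρ.baseChange K).ρ σ (f 0) = c • f 1 ∧
        (ρ.baseChange K).ρ σ (f 1) = d • f 0 := by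
  obtain ⟨hidx, hirr, V, hV, hVb, hVt⟩ := h
  set R := (ρ.baseChange K).ρ with hR
  -- `V` is a line; choose `t` outside `G`.
  obtain ⟨e, he, he0⟩ := Submodule.exists_mem_ne_zero_of_ne_bot hVb
  have hVe : Submodule.span K {e} = V := by
    refine Submodule.eq_of_le_of_finrank_le ((Submodule.span_singleton_le_iff_mem _ _).mpr he) ?_
    rw [finrank_span_singleton he0]
    have := Submodule.finrank_lt hVt
    rw [(ρ.baseChange K).finrank_eq] at this
    omega
  have hmemV : ∀ x ∈ V, ∃ a : K, x = a • e := fun x hx => by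
    rw [← hVe, Submodule.mem_span_singleton] at hx
    obtain ⟨a, rfl⟩ := hx
    exact ⟨a, rfl⟩
  have hG : ∀ σ ∈ G, ∃ a : K, R σ e = a • e := fun σ hσ => hmemV _ (hV σ hσ e he)
  obtain ⟨t, ht⟩ : ∃ t, t ∉ G := by
    by_contra hall
    simp only [not_exists, not_not] at hall
    rw [(Subgroup.eq_top_iff' G).mpr hall, Subgroup.index_top] at hidx
    omega
  have hmul : ∀ {σ τ : GQ}, σ ∉ G → τ ∉ G → σ * τ ∈ G := fun hσ hτ =>
    (Subgroup.mul_mem_iff_of_index_two hidx).mpr (iff_of_false hσ hτ)
  have hnot : ∀ σ, σ ∉ G → ∃ c : K, R σ e = c • R t e := fun σ hσ => by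
    obtain ⟨a, ha⟩ := hG (t⁻¹ * σ) (hmul (by simpa using ht) hσ)
    refine ⟨a, ?_⟩
    rw [← map_smul, ← ha, ← Module.End.mul_apply, ← map_mul, mul_inv_cancel_left]
  -- By irreducibility `t` moves the line, so `e`, `t e` is a basis.
  have hnotmem : R t e ∉ V := fun hte => by
    rcases hirr V (fun σ x hx => by
      by_cases hσ : σ ∈ G
      · exact hV σ hσ x hx
      · obtain ⟨a, rfl⟩ := hmemV x hx
        obtain ⟨c, hc⟩ := hnot σ hσ
        rw [map_smul, hc]
        exact V.smul_mem _ (V.smul_mem _ hte)) with hb | ht'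
    · exact hVb hb
    · exact hVt ht'
  have hli : LinearIndependent K ![e, R t e] := by
    refine (LinearIndependent.pair_iff' he0).mpr fun a ha => hnotmem ?_
    rw [← ha]
    exact V.smul_mem a he
  refine ⟨basisOfLinearIndependentOfCardEqFinrank hli (by simp [(ρ.baseChange K).finrank_eq]),
    fun σ hσ => ?_, fun σ hσ => ?_⟩
  · obtain ⟨a, ha⟩ := hG σ hσ
    have : G.Normal := Subgroup.normal_of_index_eq_two hidx
    obtain ⟨b, hb⟩ := hG (t⁻¹ * σ * t) (by simpa using this.conj_mem σ hσ t⁻¹)
    refine ⟨a, b, by simpa using ha, ?_⟩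
    simp only [coe_basisOfLinearIndependentOfCardEqFinrank, Matrix.cons_val_one,
      Matrix.cons_val_fin_one]
    rw [← map_smul, ← hb, ← Module.End.mul_apply, ← Module.End.mul_apply, ← map_mul, ← map_mul]
    congr 2
    group
  · obtain ⟨c, hc⟩ := hnot σ hσ
    obtain ⟨d, hd⟩ := hG (σ * t) (hmul hσ ht)
    refine ⟨c, d, by simpa using hc, ?_⟩
    simp only [coe_basisOfLinearIndependentOfCardEqFinrank, Matrix.cons_val_one,
      Matrix.cons_val_zero, Matrix.cons_val_fin_one]
    rw [← hd, map_mul, Module.End.mul_apply]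

/-- Endomorphisms equal after extension of the field are equal. -/
theorem baseChange_injective {T T' : Module.End k ρ.V}
    (h : T.baseChange K = T'.baseChange K) : T = T' := by
  refine LinearMap.ext fun v => ?_
  let b := Module.finBasisOfFinrankEq k ρ.V ρ.finrank_eq
  refine b.ext_elem fun i => (algebraMap k K).injective ?_
  have := congrArg (fun w => (b.baseChange K).repr w i) (LinearMap.congr_fun h ((1 : K) ⊗ₜ v))
  simpa [Module.Basis.baseChange_repr_tmul, Algebra.algebraMap_eq_smul_one] using this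

/-- Traces vanish outside `G`. -/
theorem IsInducedFrom.trace_eq_zero (h : IsInducedFrom ρ K G) {σ : GQ} (hσ : σ ∉ G) :
    LinearMap.trace k ρ.V (ρ.ρ σ) = 0 := by
  obtain ⟨f, -, hf⟩ := h.exists_basis
  obtain ⟨c, d, hc, hd⟩ := hf σ hσ
  refine (algebraMap k K).injective ?_
  rw [map_zero, ← LinearMap.trace_baseChange]
  show LinearMap.trace K _ ((ρ.baseChange K).ρ σ) = 0
  rw [LinearMap.trace_eq_matrix_trace K f, Matrix.trace_fin_two, LinearMap.toMatrix_apply,
    LinearMap.toMatrix_apply, hc, hd]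
  simp

/-- The kernel is contained in `G`. -/
theorem IsInducedFrom.mem_of_eq_one (h : IsInducedFrom ρ K G) (h2 : (2 : k) ≠ 0) {σ : GQ}
    (hσ : ρ.ρ σ = 1) : σ ∈ G := by
  by_contra hn
  have := h.trace_eq_zero hn
  rw [hσ, LinearMap.trace_one, ρ.finrank_eq] at this
  exact h2 (by exact_mod_cast this)

/-- Unipotent elements act trivially. -/
theorem IsInducedFrom.eq_one_of_unipotent (h : IsInducedFrom ρ K G) (h2 : (2 : k) ≠ 0) {σ : GQ}
    (hu : ∀ v, ρ.ρ σ (ρ.ρ σ v - v) = ρ.ρ σ v - v) : ρ.ρ σ = 1 := by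
  obtain ⟨f, hf, hf'⟩ := h.exists_basis
  set R := (ρ.baseChange K).ρ σ with hR
  have huK : ∀ w, R (R w - w) = R w - w := by
    intro w
    induction w using TensorProduct.induction_on with
    | zero => simp
    | tmul a v =>
      show (ρ.ρ σ).baseChange K ((ρ.ρ σ).baseChange K (a ⊗ₜ v) - a ⊗ₜ v) = _
      rw [hR]
      show _ = (ρ.ρ σ).baseChange K (a ⊗ₜ v) - a ⊗ₜ v
      rw [LinearMap.baseChange_tmul, ← TensorProduct.tmul_sub, LinearMap.baseChange_tmul, hu]
    | add x y hx hy => rw [map_add, add_sub_add_comm, map_add, hx, hy]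
  have h2K : (2 : K) ≠ 0 := by
    rw [← map_ofNat (algebraMap k K)]; simpa using h2
  apply baseChange_injective (K := K)
  rw [show (ρ.ρ σ).baseChange K = R from rfl, Module.End.one_eq_id, LinearMap.baseChange_id]
  -- In `G` both eigenvalues are `1`.
  by_cases hσ : σ ∈ G
  · obtain ⟨a, b, ha, hb⟩ := hf σ hσ
    have key : ∀ i (a : K), R (f i) = a • f i → a = 1 := by
      intro i a ha
      have h0 := huK (f i)
      rw [map_sub, ha, map_smul, ha, sub_eq_iff_eq_add] at h0
      have h1 : (a * a - 2 * a + 1) • f i = 0 := by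
        linear_combination (norm := module) h0
      have h3 := (smul_eq_zero.mp h1).resolve_right (f.ne_zero i)
      exact sub_eq_zero.mp (pow_eq_zero_iff (two_ne_zero) |>.mp
        (show (a - 1) ^ 2 = 0 by linear_combination h3))
    refine f.ext fun i => ?_
    fin_cases i
    · exact ha.trans (by rw [key 0 a ha, one_smul]; rfl)
    · exact hb.trans (by rw [key 1 b hb, one_smul]; rfl)
  · obtain ⟨c, d, hc, hd⟩ := hf' σ hσ
    -- Outside `G` unipotence would make `σ` kill a basis vector.
    have h0 := huK (f 0)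
    rw [map_sub, hc, map_smul, hd, sub_eq_iff_eq_add] at h0
    have h1 := congrArg (fun w => f.repr w 1) h0
    simp at h1
    have h4 : c = 0 := by
      have : (2 : K) * c = 0 := by linear_combination -h1
      exact (mul_eq_zero.mp this).resolve_left h2K
    exfalso
    rw [h4, zero_smul] at hc
    have hinv : (ρ.baseChange K).ρ σ⁻¹ (R (f 0)) = f 0 := by
      rw [hR, ← Module.End.mul_apply, ← map_mul, inv_mul_cancel, map_one, Module.End.one_apply]
    rw [hc, map_zero] at hinv
    exact f.ne_zero 0 hinv.symm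

/-- An element of `G` commuting with an element outside `G` acts as a scalar. -/
theorem IsInducedFrom.exists_eq_smul_one (h : IsInducedFrom ρ K G) (h2 : (2 : k) ≠ 0) {σ g : GQ}
    (hσ : σ ∈ G) (hg : g ∉ G) (hcomm : ρ.ρ σ * ρ.ρ g = ρ.ρ g * ρ.ρ σ) :
    ∃ a : k, ρ.ρ σ = a • 1 := by
  obtain ⟨f, hf, hf'⟩ := h.exists_basis
  obtain ⟨a, b, ha, hb⟩ := hf σ hσ
  obtain ⟨c, d, hc, hd⟩ := hf' g hg
  have hK : (ρ.baseChange K).ρ σ * (ρ.baseChange K).ρ g =
      (ρ.baseChange K).ρ g * (ρ.baseChange K).ρ σ := by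
    show (ρ.ρ σ).baseChange K * (ρ.ρ g).baseChange K =
      (ρ.ρ g).baseChange K * (ρ.ρ σ).baseChange K
    rw [← LinearMap.baseChange_mul, ← LinearMap.baseChange_mul, hcomm]
  have h0 := LinearMap.congr_fun hK (f 0)
  rw [Module.End.mul_apply, Module.End.mul_apply, hc, ha, map_smul, map_smul, hb, hc,
    smul_smul, smul_smul] at h0
  have hc0 : c ≠ 0 := fun h4 => by
    rw [h4, zero_smul] at hc
    have hinv : (ρ.baseChange K).ρ g⁻¹ ((ρ.baseChange K).ρ g (f 0)) = f 0 := by
      rw [← Module.End.mul_apply, ← map_mul, inv_mul_cancel, map_one, Module.End.one_apply]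
    rw [hc, map_zero] at hinv
    exact f.ne_zero 0 hinv.symm
  have hab : b = a := by
    have h1 := congrArg (fun w => f.repr w 1) h0
    simp at h1
    exact mul_left_cancel₀ hc0 (by linear_combination h1)
  subst hab
  have htr : algebraMap k K (LinearMap.trace k ρ.V (ρ.ρ σ)) = 2 * b := by
    rw [← LinearMap.trace_baseChange]
    show LinearMap.trace K _ ((ρ.baseChange K).ρ σ) = _
    rw [LinearMap.trace_eq_matrix_trace K f, Matrix.trace_fin_two, LinearMap.toMatrix_apply,
      LinearMap.toMatrix_apply, ha, hb]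
    simp [two_mul]
  refine ⟨LinearMap.trace k ρ.V (ρ.ρ σ) / 2, baseChange_injective (K := K) ?_⟩
  have h2K : (2 : K) ≠ 0 := by
    rw [← map_ofNat (algebraMap k K)]; simpa using h2
  rw [LinearMap.baseChange_smul, Module.End.one_eq_id, LinearMap.baseChange_id]
  refine f.ext fun i => ?_
  show (ρ.baseChange K).ρ σ (f i) = _
  rw [LinearMap.smul_apply, LinearMap.id_apply, ← algebraMap_smul K, map_div₀, map_ofNat, htr,
    mul_div_cancel_left₀ _ h2K]
  fin_cases i
  · exact ha
  · exact hb

end Fermat.Agent.EC.Rep
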