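import Fermat.Agent.Arith.RootsOfUnity
import Fermat.Agent.EC.AtP.Inertia
import Fermat.Agent.EC.Multiplicative.Galois

/-!
# Commutators in an inertia group

The residues of `σ z / z` define characters of the inertia group; hence a commutator of inertia
elements which fixes `y` up to a power prime to the residue characteristic fixes `y`.
-/

set_option autoImplicit false

noncomputable section

namespace Fermat.Agent.EC.Rep

open Fermat.Agent.Arith Fermat.Agent.EC.Reduction

variable {A : ValuationSubring QBar} {σ τ : GQ} {z : QBar}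

/-- For inertia `σ` the quotient `σ z / z` is a unit of `A`. -/
theorem apply_div_self_mem (hσ : σ ∈ A.inertiaSubgroupIn ℚ) (hz : z ≠ 0) :
    σ z / z ∈ A ∧ res A (σ z / z) ≠ 0 := by
  have hv : A.valuation (σ z / z) = 1 := by
    rw [map_div₀, Multiplicative.valuation_map_eq (mem_inertia_iff_forall_mem.mp hσ).1,
      div_self (A.valuation.ne_zero_iff.mpr hz)]
  have hmem : σ z / z ∈ A := (A.valuation_le_one_iff _).mp hv.le
  refine ⟨hmem, fun h => ?_⟩
  have := (A.mem_nonunits_iff).mp ((res_eq_zero_iff hmem).mp h)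
  rw [hv] at this
  exact lt_irrefl _ this

/-- `σ ↦ res (σ z / z)` is multiplicative on inertia. -/
theorem res_apply_mul_div_self (hσ : σ ∈ A.inertiaSubgroupIn ℚ) (hτ : τ ∈ A.inertiaSubgroupIn ℚ)
    (hz : z ≠ 0) : res A ((σ * τ) z / z) = res A (σ z / z) * res A (τ z / z) := by
  obtain ⟨h1, -⟩ := apply_div_self_mem hτ hz
  obtain ⟨h2, h3⟩ := AtP.res_inertia hσ h1
  have hσz : σ z ≠ 0 := by simpa using hz
  have e : (σ * τ) z / z = σ (τ z / z) * (σ z / z) := by
    rw [AlgEquiv.mul_apply, map_div₀]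
    field_simp
  rw [e, res_mul h2 (apply_div_self_mem hσ hz).1, h3, mul_comm]

/-- `σ ↦ res (σ z / z)` respects inverses on inertia. -/
theorem res_apply_inv_div_self (hσ : σ ∈ A.inertiaSubgroupIn ℚ) (hz : z ≠ 0) :
    res A (σ⁻¹ z / z) = (res A (σ z / z))⁻¹ := by
  refine eq_inv_of_mul_eq_one_left ?_
  rw [← res_apply_mul_div_self (inv_mem hσ) hσ hz, inv_mul_cancel, AlgEquiv.one_apply,
    div_self hz, res_one]

/-- `σ ↦ res (σ z / z)` respects powers on inertia. -/
theorem res_pow_apply_div_self (hσ : σ ∈ A.inertiaSubgroupIn ℚ) (hz : z ≠ 0) (n : ℕ) :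
    res A ((σ ^ n) z / z) = res A (σ z / z) ^ n := by
  induction n with
  | zero => simp [div_self hz]
  | succ n ih => rw [pow_succ, res_apply_mul_div_self (pow_mem hσ n) hσ hz, ih, pow_succ]

/-- A commutator of inertia elements has residue `1` at every `z`. -/
theorem res_commutator_apply_div_self (hσ : σ ∈ A.inertiaSubgroupIn ℚ)
    (hτ : τ ∈ A.inertiaSubgroupIn ℚ) (hz : z ≠ 0) :
    res A ((σ * τ * σ⁻¹ * τ⁻¹) z / z) = 1 := by
  rw [res_apply_mul_div_self (mul_mem (mul_mem hσ hτ) (inv_mem hσ)) (inv_mem hτ) hz,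
    res_apply_mul_div_self (mul_mem hσ hτ) (inv_mem hσ) hz, res_apply_mul_div_self hσ hτ hz,
    res_apply_inv_div_self hσ hz, res_apply_inv_div_self hτ hz]
  have h1 := (apply_div_self_mem hσ hz).2
  have h2 := (apply_div_self_mem hτ hz).2
  field_simp

/-- An inertia element with trivial tame characters, a power of which prime to `p` fixes `y`,
fixes `y`. -/
theorem apply_eq_self_of_res_eq_one {p : ℕ} (hA : A.LiesOverPrime p) (hp : p.Prime) {ν : GQ}
    (hν : ν ∈ A.inertiaSubgroupIn ℚ) (htriv : ∀ z : QBar, z ≠ 0 → res A (ν z / z) = 1) {y : QBar}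
    {n : ℕ} (hn : ¬ p ∣ n) (hy : (ν ^ n) y = y) : ν y = y := by
  by_contra hne
  set d := ν y - y with hd
  have hd0 : d ≠ 0 := sub_ne_zero.mpr hne
  have hsum : ∑ i ∈ Finset.range n, (ν ^ i) d / d = 0 := by
    have : ∀ i, (ν ^ i) d = (ν ^ (i + 1)) y - (ν ^ i) y := fun i => by
      rw [hd, map_sub, pow_succ, AlgEquiv.mul_apply (ν ^ i) ν]
    rw [← Finset.sum_div, Finset.sum_congr rfl fun i _ => this i,
      Finset.sum_range_sub fun i => (ν ^ i) y, hy, pow_zero, AlgEquiv.one_apply, sub_self,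
      zero_div]
  have hmem : ∀ i, (ν ^ i) d / d ∈ A := fun i => (apply_div_self_mem (pow_mem hν i) hd0).1
  have hres : ∀ i, res A ((ν ^ i) d / d) = 1 := fun i => by
    rw [res_pow_apply_div_self hν hd0, htriv d hd0, one_pow]
  have key : ∀ k, res A (∑ i ∈ Finset.range k, (ν ^ i) d / d) =
      (k : IsLocalRing.ResidueField A) := by
    intro k
    induction k with
    | zero => simp
    | succ k ih =>
      rw [Finset.sum_range_succ, res_add (sum_mem fun i _ => hmem i) (hmem k), ih, hres,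
        Nat.cast_succ]
  have h := key n
  rw [hsum, res_zero] at h
  have := residueField_charP hA hp
  exact hn ((CharP.cast_eq_zero_iff _ p n).mp h.symm)

/-- A commutator of inertia elements with a power prime to `p` fixing `y` fixes `y`. -/
theorem commutator_apply_eq_self {p : ℕ} (hA : A.LiesOverPrime p) (hp : p.Prime)
    (hσ : σ ∈ A.inertiaSubgroupIn ℚ) (hτ : τ ∈ A.inertiaSubgroupIn ℚ) {y : QBar} {n : ℕ}
    (hn : ¬ p ∣ n) (hy : ((σ * τ * σ⁻¹ * τ⁻¹) ^ n) y = y) :
    (σ * τ * σ⁻¹ * τ⁻¹) y = y :=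
  apply_eq_self_of_res_eq_one hA hp (mul_mem (mul_mem (mul_mem hσ hτ) (inv_mem hσ)) (inv_mem hτ))
    (fun _ hz => res_commutator_apply_div_self hσ hτ hz) hn hy

end Fermat.Agent.EC.Rep
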