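import Fermat.Agent.EC.Rep.Residual
import Fermat.Agent.EC.Rep.IndexTwo
import Fermat.Agent.EC.Rep.Tame
import Fermat.Agent.Arith.CyclotomicCharacter
import Fermat.Agent.EC.Rep.Ramification
import Fermat.Agent.EC.AtP.Semistable
import Mathlib.GroupTheory.Nilpotent
import Mathlib.GroupTheory.Perm.Cycle.Type
import Mathlib.LinearAlgebra.Eigenspace.Zero
import Mathlib.LinearAlgebra.Matrix.GeneralLinearGroup.Card

/-!
# The Taylor–Wiles hypothesis for semistable elliptic curves

For a semistable curve with irreducible `E[p]`, `p` odd, no line over an extension field is stable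
under a subgroup of index two of the absolute Galois group.

The main theorem is `residualRep_indexTwo_irreducible`.
-/

set_option autoImplicit false

open scoped Pointwise
open WeierstrassCurve Fermat.Agent.Arith

namespace Fermat.Agent.EC.Rep

/-- The units of `ZMod 3` are `±1`. -/
theorem units_zmod_three : ∀ a : (ZMod 3)ˣ, a = 1 ∨ a = -1 := by decide

variable {W : WeierstrassCurve ℤ} {p : ℕ} [Fact p.Prime] (hΔ : W.Δ ≠ 0)

local notation "ρbar" => residualRep W p hΔ

/-! ### Inertia on an induced representation -/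

/-- For a semistable model no prime divides both `c₄` and `Δ`. -/
theorem semistable_not_dvd (hW : W.IsSemistableModel) (q : ℕ) (hq : q.Prime) :
    ¬ ((q : ℤ) ∣ W.c₄ ∧ (q : ℤ) ∣ W.Δ) := fun h => hW q hq h.2 h.1

/-- Away from `p`, inertia acts unipotently on `E[p]` for a semistable model. -/
theorem residualRep_unipotent (hW : W.IsSemistableModel) {q : ℕ} (hq : q.Prime) (hqp : q ≠ p)
    {A : ValuationSubring QBar} (hA : A.LiesOverPrime q) {σ : GQ}
    (hσ : σ ∈ A.inertiaSubgroupIn ℚ) (v : (ρbar).V) :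
    (ρbar).ρ σ ((ρbar).ρ σ v - v) = (ρbar).ρ σ v - v := by
  have : (W.map (Int.castRingHom ℚ)).IsElliptic := FrobTrace.isElliptic_map_rat hΔ
  have h := AtP.deltaHom_deltaHom_eq_zero (W := W) (p := p) hq hqp
    (AtP.inertiaPreservesComponent_of_semistable W hΔ (semistable_not_dvd hW))
    (AtP.e1TorsionFree p Fact.out) hA hσ v
  exact sub_eq_zero.mp h

/-- The endomorphisms of `E[p]` form a finite ring. -/
theorem finite_end_residualRep : Finite (Module.End (ZMod p) (ρbar).V) := by
  have : Finite (ρbar).V := Module.finite_of_finite (ZMod p)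
  exact Finite.of_injective _ (DFunLike.coe_injective (F := Module.End (ZMod p) (ρbar).V))

variable {hΔ} {K : Type} [Field K] [Algebra (ZMod p) K] {G : Subgroup GQ}

/-- An induced `E[p]` of a semistable curve is unramified away from `p`. -/
theorem IsInducedFrom.residual_unramified (h : IsInducedFrom (ρbar) K G) (hp2 : p ≠ 2)
    (hW : W.IsSemistableModel) {q : ℕ} (hq : q.Prime) (hqp : q ≠ p)
    {A : ValuationSubring QBar} (hA : A.LiesOverPrime q) {σ : GQ}
    (hσ : σ ∈ A.inertiaSubgroupIn ℚ) : (ρbar).ρ σ = 1 :=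
  h.eq_one_of_unipotent (two_ne_zero_zmod hp2) (residualRep_unipotent hΔ hW hq hqp hA hσ)

/-- Inertia at a translated place is conjugate to inertia at the place. -/
theorem conj_mem_inertia {A : ValuationSubring QBar} {g σ : GQ}
    (hσ : σ ∈ (g • A).inertiaSubgroupIn ℚ) : g⁻¹ * σ * g ∈ A.inertiaSubgroupIn ℚ :=
  mem_inertia_smul_iff.mp
    (by group; exact hσ : g * (g⁻¹ * σ * g) * g⁻¹ ∈ (g • A).inertiaSubgroupIn ℚ)

/-- The quadratic character cutting out `G` is ramified at every place over `p`. -/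
theorem IsInducedFrom.exists_inertia_notMem (h : IsInducedFrom (ρbar) K G) (hp2 : p ≠ 2)
    (hW : W.IsSemistableModel) {A : ValuationSubring QBar} (hA : A.LiesOverPrime p) :
    ∃ g ∈ A.inertiaSubgroupIn ℚ, g ∉ G := by
  by_contra hall
  push Not at hall
  have hN : G.Normal := Subgroup.normal_of_index_eq_two h.index_eq
  obtain ⟨L, hLfin, hL⟩ := (ρbar).factorsThroughFiniteLevel
  have htop : G = ⊤ := by
    refine eq_top_of_inertia_le G (Subgroup.isOpen_mono (fun σ hσ => ?_)
      (IntermediateField.fixingSubgroup_isOpen L)) fun q hq B hB σ hσ => ?_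
    · exact h.mem_of_eq_one (two_ne_zero_zmod hp2)
        (hL σ fun x hx => (IntermediateField.mem_fixingSubgroup_iff _ _).mp hσ x hx)
    · by_cases hqp : q = p
      · subst hqp
        obtain ⟨g, rfl⟩ := exists_smul_eq hA hB hq
        have := hN.conj_mem _ (hall _ (conj_mem_inertia hσ)) g
        group at this
        exact this
      · exact h.mem_of_eq_one (two_ne_zero_zmod hp2) (h.residual_unramified hp2 hW hq hqp hB hσ)
  have := h.index_eq
  rw [htop, Subgroup.index_top] at this
  omega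

/-- Every element of the image has order prime to `p`. -/
theorem IsInducedFrom.exists_pow_eq_one (h : IsInducedFrom (ρbar) K G) (hp2 : p ≠ 2) (σ : GQ) :
    ∃ n, ¬ p ∣ n ∧ (ρbar).ρ σ ^ n = 1 := by
  have hp : p.Prime := Fact.out
  have : Finite (Module.End (ZMod p) (ρbar).V) := finite_end_residualRep hΔ
  set u := (ρbar).ρ.toHomUnits σ with hu
  obtain ⟨k, m, hm, hkm⟩ :=
    Nat.exists_eq_pow_mul_and_not_dvd (orderOf_pos u).ne' p hp.ne_one
  refine ⟨m, hm, ?_⟩
  rw [← map_pow]
  set T := (ρbar).ρ (σ ^ m) with hT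
  have hTp : T ^ p ^ k = 1 := by
    rw [hT, ← map_pow, ← pow_mul, mul_comm, ← hkm, map_pow]
    exact congrArg Units.val (pow_orderOf_eq_one u)
  have : CharP (Module.End (ZMod p) (ρbar).V) p := by
    have : Nontrivial (ρbar).V := Module.nontrivial_of_finrank_eq_succ (ρbar).finrank_eq
    exact charP_of_injective_algebraMap (algebraMap (ZMod p) _).injective p
  have hnil : IsNilpotent (T - 1) :=
    ⟨p ^ k, by rw [sub_pow_char_pow_of_commute p k (Commute.one_right T), hTp, one_pow, sub_self]⟩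
  have hsq : (T - 1) ^ 2 = 0 := by
    have h1 := (T - 1).aeval_self_charpoly
    rw [hnil.charpoly_eq_X_pow_finrank, (ρbar).finrank_eq,
      map_pow, Polynomial.aeval_X] at h1
    exact h1
  refine h.eq_one_of_unipotent (two_ne_zero_zmod hp2) fun v => sub_eq_zero.mp ?_
  rw [← hT]
  exact LinearMap.congr_fun hsq v

/-- On an inertia group at `p` the image is commutative. -/
theorem IsInducedFrom.inertia_commute (h : IsInducedFrom (ρbar) K G) (hp2 : p ≠ 2)
    {A : ValuationSubring QBar} (hA : A.LiesOverPrime p) {σ τ : GQ}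
    (hσ : σ ∈ A.inertiaSubgroupIn ℚ) (hτ : τ ∈ A.inertiaSubgroupIn ℚ) :
    (ρbar).ρ σ * (ρbar).ρ τ = (ρbar).ρ τ * (ρbar).ρ σ := by
  obtain ⟨n, hn, hpow⟩ := h.exists_pow_eq_one hp2 (σ * τ * σ⁻¹ * τ⁻¹)
  set ν := σ * τ * σ⁻¹ * τ⁻¹ with hν
  have hone : (ρbar).ρ ν = 1 := by
    refine LinearMap.ext fun v => Subtype.ext ?_
    show ν • (v : AtP.TorsQBar W p).1 = (v : AtP.TorsQBar W p).1
    have hfix : (ν ^ n) • (v : AtP.TorsQBar W p).1 = (v : AtP.TorsQBar W p).1 := by
      rw [← map_pow] at hpow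
      exact congrArg Subtype.val (LinearMap.congr_fun hpow v)
    match (v : AtP.TorsQBar W p).1, hfix with
    | .zero, _ => rfl
    | .some x y hxy, hfix =>
      simp only [Affine.Point.algEquiv_smul_def, Affine.Point.map_some,
        Affine.Point.some.injEq] at hfix ⊢
      exact ⟨commutator_apply_eq_self hA Fact.out hσ hτ hn hfix.1,
        commutator_apply_eq_self hA Fact.out hσ hτ hn hfix.2⟩
  have e : σ * τ = ν * (τ * σ) := by rw [hν]; group
  rw [← map_mul, ← map_mul, e, map_mul, hone, one_mul]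

/-- Elements of inertia at `p` in the subgroup of index two act as scalars. -/
theorem IsInducedFrom.inertia_scalar (h : IsInducedFrom (ρbar) K G) (hp2 : p ≠ 2)
    (hW : W.IsSemistableModel) {A : ValuationSubring QBar} (hA : A.LiesOverPrime p) {σ : GQ}
    (hσ : σ ∈ A.inertiaSubgroupIn ℚ) (hσG : σ ∈ G) : ∃ a : ZMod p, (ρbar).ρ σ = a • 1 := by
  obtain ⟨g, hg, hgG⟩ := h.exists_inertia_notMem hp2 hW hA
  exact h.exists_eq_smul_one (two_ne_zero_zmod hp2) hσG hgG (h.inertia_commute hp2 hA hσ hg)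

/-- The determinant on `E[p]` is the cyclotomic character. -/
theorem det_residualRep_cyclotomicHom (σ : GQ) :
    LinearMap.det ((ρbar).ρ σ) = ((cyclotomicHom p σ : (ZMod p)ˣ) : ZMod p) :=
  det_residualRep hΔ (IsAlgClosed.card_rootsOfUnity_eq _ p) σ

/-- A proper subgroup absorbing inertia forces `p = 3` and an image of inertia of order two. -/
theorem IsInducedFrom.absorbing_case (h : IsInducedFrom (ρbar) K G) (hp2 : p ≠ 2)
    (hW : W.IsSemistableModel) {A : ValuationSubring QBar} (hA : A.LiesOverPrime p)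
    {C : AddSubgroup (ρbar).V} (hC : C ≠ ⊤)
    (hCσ : ∀ σ ∈ A.inertiaSubgroupIn ℚ, ∀ x : (ρbar).V, (ρbar).ρ σ x - x ∈ C)
    {g : GQ} (hg : g ∈ A.inertiaSubgroupIn ℚ) (hgG : g ∉ G) :
    p = 3 ∧ ∀ σ ∈ A.inertiaSubgroupIn ℚ, (ρbar).ρ σ = 1 ∨ (ρbar).ρ σ = (ρbar).ρ g := by
  -- Inertia in `G` acts by scalars, which must be trivial as `C` is proper.
  have hone : ∀ σ ∈ A.inertiaSubgroupIn ℚ, σ ∈ G → (ρbar).ρ σ = 1 := by
    intro σ hσ hσG
    obtain ⟨a, ha⟩ := h.inertia_scalar hp2 hW hA hσ hσG
    by_cases ha1 : a = 1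
    · rw [ha, ha1, one_smul]
    exfalso
    refine hC (eq_top_iff.mpr fun x _ => ?_)
    have h1 : (a - 1) • x ∈ C := by
      have := hCσ σ hσ x
      rw [ha, LinearMap.smul_apply, Module.End.one_apply] at this
      rwa [sub_smul, one_smul]
    have := ZMod.smul_mem h1 (a - 1)⁻¹
    rwa [smul_smul, inv_mul_cancel₀ (sub_ne_zero.mpr ha1), one_smul] at this
  -- So inertia acts through the two values `1` and `ρbar g`.
  have hval : ∀ σ ∈ A.inertiaSubgroupIn ℚ, (ρbar).ρ σ = 1 ∨ (ρbar).ρ σ = (ρbar).ρ g := by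
    intro σ hσ
    by_cases hσG : σ ∈ G
    · exact Or.inl (hone σ hσ hσG)
    · right
      have h1 : g⁻¹ * σ ∈ G := (Subgroup.mul_mem_iff_of_index_two h.index_eq).mpr
        (iff_of_false (by simpa using hgG) hσG)
      have h2 := hone _ (mul_mem (inv_mem hg) hσ) h1
      have e : (ρbar).ρ σ = (ρbar).ρ g * (ρbar).ρ (g⁻¹ * σ) := by
        rw [← map_mul, mul_inv_cancel_left]
      rw [e, h2, mul_one]
  refine ⟨?_, hval⟩
  -- The cyclotomic character is then two-valued on inertia but surjective, so `p - 1 ≤ 2`.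
  have hcard : Nat.card (ZMod p)ˣ ≤ Nat.card (Fin 2) := by
    refine Nat.card_le_card_of_surjective
      (fun i : Fin 2 => if i = 0 then 1 else cyclotomicHom p g) fun a => ?_
    obtain ⟨σ, hσ, rfl⟩ := exists_mem_inertia_cyclotomicHom_eq hA a
    rcases hval σ hσ with h1 | h1
    · refine ⟨0, Units.ext ?_⟩
      rw [← det_residualRep_cyclotomicHom (hΔ := hΔ), h1]
      simp
    · refine ⟨1, Units.ext ?_⟩
      simp only [Fin.reduceEq, ↓reduceIte]
      rw [← det_residualRep_cyclotomicHom (hΔ := hΔ),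
        ← det_residualRep_cyclotomicHom (hΔ := hΔ), h1]
  rw [Nat.card_fin, Nat.card_eq_fintype_card, ZMod.card_units] at hcard
  have := (Fact.out : p.Prime).two_le
  omega

/-! ### Small images of inertia -/

/-- A unit in the subgroup generated by `-1` is `1` or `-1`. -/
private theorem val_eq_one_or_neg_one {R : Type*} [Ring R] {u : Rˣ}
    (hu : u ∈ Subgroup.zpowers (-1 : Rˣ)) : (u : R) = 1 ∨ (u : R) = -1 := by
  obtain ⟨i, rfl⟩ := Subgroup.mem_zpowers_iff.mp hu
  rcases i.even_or_odd with he | ho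
  · exact Or.inl (by rw [he.neg_one_zpow, Units.val_one])
  · exact Or.inr (by rw [ho.neg_one_zpow, Units.val_neg, Units.val_one])

/-- An automorphism sending a point to itself or to its negative fixes its abscissa. -/
private theorem apply_x_of_smul_eq_or_eq_neg {x y : QBar} {hxy} {σ : GQ}
    (h : σ • (Affine.Point.some x y hxy : AtP.PointQBar W) = Affine.Point.some x y hxy ∨
      σ • (Affine.Point.some x y hxy : AtP.PointQBar W) = -Affine.Point.some x y hxy) :
    σ x = x := by
  rcases h with h | h <;>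
    simp only [Affine.Point.algEquiv_smul_def, Affine.Point.map_some, Affine.Point.neg_some,
      Affine.Point.some.injEq] at h <;> exact h.1

/-- With `g` in inertia and outside `G`, inertia over `p` acts by scalars and their translates
by `g`. -/
private theorem IsInducedFrom.inertia_eq_scalar_or_translate (h : IsInducedFrom (ρbar) K G)
    (hp2 : p ≠ 2) (hW : W.IsSemistableModel) {A : ValuationSubring QBar} (hA : A.LiesOverPrime p)
    {g : GQ} (hg : g ∈ A.inertiaSubgroupIn ℚ) (hgG : g ∉ G) {σ : GQ}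
    (hσ : σ ∈ A.inertiaSubgroupIn ℚ) :
    ∃ a : (ZMod p)ˣ, (ρbar).ρ σ = algebraMap (ZMod p) _ (a : ZMod p) ∨
      (ρbar).ρ σ = (ρbar).ρ g * algebraMap (ZMod p) _ (a : ZMod p) := by
  have : Nontrivial (ρbar).V := Module.nontrivial_of_finrank_eq_succ (ρbar).finrank_eq
  -- inertia inside `G` acts by nonzero scalars
  have key : ∀ τ ∈ A.inertiaSubgroupIn ℚ, τ ∈ G →
      ∃ a : (ZMod p)ˣ, (ρbar).ρ τ = algebraMap (ZMod p) _ (a : ZMod p) := by
    intro τ hτ hτG
    obtain ⟨a, ha⟩ := h.inertia_scalar hp2 hW hA hτ hτG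
    have ha0 : a ≠ 0 := fun h0 => one_ne_zero (α := Module.End (ZMod p) (ρbar).V) (by
      rw [← map_one (ρbar).ρ, ← inv_mul_cancel τ, map_mul, ha, h0, zero_smul, mul_zero])
    exact ⟨Units.mk0 a ha0, by rw [ha, Units.val_mk0, Algebra.algebraMap_eq_smul_one]⟩
  by_cases hσG : σ ∈ G
  · exact (key σ hσ hσG).imp fun a ha => Or.inl ha
  · obtain ⟨a, ha⟩ := key (g⁻¹ * σ) (mul_mem (inv_mem hg) hσ)
      ((Subgroup.mul_mem_iff_of_index_two h.index_eq).mpr
        (iff_of_false (by simpa using hgG) hσG))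
    exact ⟨a, Or.inr (by rw [← ha, ← map_mul, mul_inv_cancel_left])⟩

/-- The image of inertia cannot be small when all of `E[p]` is in the kernel of reduction. -/
theorem IsInducedFrom.false_of_forall_inE1 (h : IsInducedFrom (ρbar) K G) (hp2 : p ≠ 2)
    (hW : W.IsSemistableModel) {A : ValuationSubring QBar} (hA : A.LiesOverPrime p)
    (hall : ∀ P : AtP.PointQBar W, p • P = 0 → Reduction.InE1 A P) : False := by
  have hp : p.Prime := Fact.out
  have : (W.map (Int.castRingHom ℚ)).IsElliptic := FrobTrace.isElliptic_map_rat hΔ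
  have : Finite (Module.End (ZMod p) (ρbar).V) := finite_end_residualRep hΔ
  obtain ⟨g, hg, hgG⟩ := h.exists_inertia_notMem hp2 hW hA
  -- work in the image of the representation modulo `±1`
  set U := (Module.End (ZMod p) (ρbar).V)ˣ
  set N : Subgroup U := Subgroup.zpowers (-1) with hNdef
  have hN : N.Normal := ⟨fun n hn x => by
    obtain ⟨i, rfl⟩ := Subgroup.mem_zpowers_iff.mp hn
    rw [((Commute.neg_one_right x).zpow_right i).eq, mul_inv_cancel_right]
    exact hn⟩
  set ρ' : GQ →* U ⧸ N := (QuotientGroup.mk' N).comp (ρbar).ρ.toHomUnits with hρ'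
  -- lower bound: its kernel fixes the abscissa `x` of a nonzero torsion point, whose valuation
  -- forces the ramification index to be large
  obtain ⟨P, hP⟩ : ∃ P : AtP.TorsQBar W p, P ≠ 0 :=
    have : Nontrivial (ρbar).V := Module.nontrivial_of_finrank_eq_succ (ρbar).finrank_eq
    (exists_ne (0 : (ρbar).V) : ∃ P : (ρbar).V, P ≠ 0)
  have hpP := AtP.nsmul_coe_torsQBar P
  rcases hPc : (P : AtP.PointQBar W) with _ | ⟨x, y, hxy⟩
  · exact hP (Subtype.ext hPc)
  rw [hPc] at hpP
  obtain ⟨L, hLfin, hL⟩ := (ρbar).factorsThroughFiniteLevel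
  have hL' : ∀ σ : GQ, (∀ z ∈ L, σ z = z) → ρ' σ = 1 := fun σ hσ => by
    have e : (ρbar).ρ.toHomUnits σ = 1 := Units.ext (hL σ hσ)
    rw [hρ', MonoidHom.comp_apply, e, map_one]
  have hfix : ∀ σ : GQ, ρ' σ = 1 → σ x = x := by
    intro σ hσ
    rw [hρ', MonoidHom.comp_apply, QuotientGroup.mk'_apply, QuotientGroup.eq_one_iff] at hσ
    refine apply_x_of_smul_eq_or_eq_neg (hxy := hxy) ?_
    rw [← hPc]
    exact (val_eq_one_or_neg_one hσ).imp
      (fun (h2 : (ρbar).ρ σ = 1) => congrArg Subtype.val (LinearMap.congr_fun h2 P))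
      (fun (h2 : (ρbar).ρ σ = -1) => congrArg Subtype.val (LinearMap.congr_fun h2 P))
  have hd := le_natCard_image_inertia ρ' L hL' hp hA hfix
    (AtP.valuation_pow_mul_of_forall_inE1 W hA hp hp2 (semistable_not_dvd hW p hp) hall hxy hpP)
  -- upper bound: the image is covered by scalars and their translates by `g`
  let sc : (ZMod p)ˣ →* U ⧸ N := (QuotientGroup.mk' N).comp
    (Units.map (algebraMap (ZMod p) (Module.End (ZMod p) (ρbar).V)).toMonoidHom)
  have hsub : ρ' '' (A.inertiaSubgroupIn ℚ : Set GQ) ⊆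
      Set.range sc ∪ (fun c => ρ' g * c) '' Set.range sc := by
    rintro _ ⟨σ, hσ, rfl⟩
    obtain ⟨a, ha | ha⟩ := h.inertia_eq_scalar_or_translate hp2 hW hA hg hgG hσ
    · exact Or.inl ⟨a, congrArg (QuotientGroup.mk' N) (Units.ext ha.symm)⟩
    · exact Or.inr ⟨sc a, ⟨a, rfl⟩,
        (map_mul (QuotientGroup.mk' N) _ _).symm.trans
          (congrArg (QuotientGroup.mk' N) (Units.ext ha.symm))⟩
  have hbound : Nat.card (ρ' '' (A.inertiaSubgroupIn ℚ : Set GQ)) ≤
      2 * (Set.range sc).ncard := by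
    rw [Nat.card_coe_set_eq, two_mul]
    exact (Set.ncard_le_ncard hsub).trans ((Set.ncard_union_le _ _).trans
      (Nat.add_le_add_left (Set.ncard_image_le (Set.toFinite _)) _))
  have hsc : (Set.range sc).ncard ≤ p - 1 := by
    rw [← Set.image_univ]
    refine (Set.ncard_image_le (Set.toFinite _)).trans_eq ?_
    rw [Set.ncard_univ, Nat.card_eq_fintype_card, ZMod.card_units]
  rw [Nat.card_coe_set_eq] at hd hbound
  -- the two bounds are incompatible
  by_cases hp3 : p = 3
  · -- for `p = 3` the scalars are `±1`, hence trivial modulo `±1`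
    have hsc1 : (Set.range sc).ncard ≤ 1 := by
      refine (Set.ncard_le_ncard (t := {1}) ?_).trans_eq (Set.ncard_singleton _)
      rintro _ ⟨a, rfl⟩
      rw [Set.mem_singleton_iff]
      have ha : a = 1 ∨ a = -1 := by subst hp3; exact units_zmod_three a
      rcases ha with rfl | rfl
      · exact map_one sc
      · refine (QuotientGroup.eq_one_iff _).mpr ?_
        convert Subgroup.mem_zpowers (-1 : U)
        refine Units.ext ?_
        rw [Units.coe_map]
        exact (map_neg (algebraMap (ZMod p) (Module.End (ZMod p) (ρbar).V)) 1).trans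
          (congrArg Neg.neg (map_one _))
    subst hp3
    norm_num at hd
    omega
  · have hp5 : 5 ≤ p := hp.five_le_of_ne_two_of_ne_three hp2 hp3
    have h1 : 2 * (2 * (p - 1)) + 1 < p ^ 2 - 1 := by
      obtain ⟨r, rfl⟩ : ∃ r, p = 5 + r := ⟨p - 5, by omega⟩
      have h0 : (5 + r) ^ 2 = 25 + 10 * r + r * r := by ring
      omega
    omega

/-! ### The image for `p = 3` -/

/-- For `p = 3` the image of an induced `E[p]` is a `2`-group. -/
private theorem IsInducedFrom.isPGroup_two_range (h : IsInducedFrom (ρbar) K G) (hp3 : p = 3) :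
    IsPGroup 2 (ρbar).ρ.toHomUnits.range := by
  have hp2 : p ≠ 2 := by omega
  have : Finite (Module.End (ZMod p) (ρbar).V) := finite_end_residualRep hΔ
  set φ := (ρbar).ρ.toHomUnits with hφ
  -- its order divides `|GL₂(𝔽₃)| = 48`
  have hdvd : Nat.card φ.range ∣ 48 := by
    refine (Subgroup.card_subgroup_dvd_card _).trans (dvd_of_eq ?_)
    let b := Module.finBasisOfFinrankEq (ZMod p) (ρbar).V (ρbar).finrank_eq
    rw [Nat.card_congr (Units.mapEquiv (algEquivMatrix b).toMulEquiv).toEquiv]
    refine (Matrix.card_GL_field (𝔽 := ZMod p) 2).trans ?_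
    simp only [ZMod.card, Fin.prod_univ_two, hp3]
    norm_num
  -- and is prime to `3`
  have h3 : ¬ 3 ∣ Nat.card φ.range := by
    intro h3
    have : Fact (Nat.Prime 3) := ⟨Nat.prime_three⟩
    obtain ⟨⟨u, σ, rfl⟩, hu⟩ := exists_prime_orderOf_dvd_card' 3 h3
    obtain ⟨n, hn, hpow⟩ := h.exists_pow_eq_one hp2 σ
    have hd : orderOf (φ σ) ∣ n := orderOf_dvd_of_pow_eq_one (Units.ext hpow)
    have ho : orderOf (φ σ) = 3 := by rw [← hu, ← Subgroup.orderOf_coe]
    exact hn (hp3 ▸ ho ▸ hd)
  obtain ⟨j, -, hj⟩ := (Nat.dvd_prime_pow Nat.prime_two).mp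
    ((Nat.Coprime.dvd_of_dvd_mul_right
      ((Nat.Prime.coprime_iff_not_dvd Nat.prime_three).mpr h3).symm
      (show Nat.card φ.range ∣ 2 ^ 4 * 3 by simpa using hdvd)))
  exact IsPGroup.of_card hj

/-- An irreducible `E[p]` has no cyclic image generated by an involution: an eigenvector of the
generator would span a stable line. -/
private theorem false_of_image_zpowers (hirr : W.ModRepIsIrreducible p) {g : GQ}
    (hTT : (ρbar).ρ g * (ρbar).ρ g = 1)
    (hgen : ∀ σ, (ρbar).ρ.toHomUnits σ ∈ Subgroup.zpowers ((ρbar).ρ.toHomUnits g)) : False := by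
  have : Finite (Module.End (ZMod p) (ρbar).V) := finite_end_residualRep hΔ
  set φ := (ρbar).ρ.toHomUnits with hφ
  set T := (ρbar).ρ g with hT
  -- `u`, or else `T u + u`, is an eigenvector
  obtain ⟨x, hx0, e, hex⟩ : ∃ x ≠ 0, ∃ e : ZMod p, T x = e • x := by
    have : Nontrivial (ρbar).V := Module.nontrivial_of_finrank_eq_succ (ρbar).finrank_eq
    obtain ⟨u, hu⟩ := exists_ne (0 : (ρbar).V)
    by_cases hTu : T u + u = 0
    · exact ⟨u, hu, -1, by rw [neg_one_smul]; exact eq_neg_of_add_eq_zero_left hTu⟩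
    · refine ⟨T u + u, hTu, 1, ?_⟩
      rw [one_smul, map_add, ← Module.End.mul_apply, hTT, Module.End.one_apply, add_comm]
  have hi := (isIrreducible_residualRep_iff hΔ).mpr hirr (Submodule.span (ZMod p) {x})
    fun σ y hy => by
      have hst : ∀ z ∈ Submodule.span (ZMod p) {x}, T z ∈ Submodule.span (ZMod p) {x} := by
        intro z hz
        obtain ⟨c, rfl⟩ := Submodule.mem_span_singleton.mp hz
        rw [map_smul, hex]
        exact Submodule.smul_mem _ _ (Submodule.smul_mem _ _
          (Submodule.mem_span_singleton_self x))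
      obtain ⟨n, hn⟩ := (isOfFinOrder_of_finite (φ g)).mem_powers_iff_mem_zpowers.mpr (hgen σ)
      have hσ : (ρbar).ρ σ = T ^ n := by
        rw [show (ρbar).ρ σ = ((φ σ : _ˣ) : Module.End (ZMod p) (ρbar).V) from rfl, ← hn]
        rfl
      rw [hσ]
      clear hσ hn
      induction n with
      | zero => simpa using hy
      | succ n ih => rw [pow_succ']; exact hst _ ih
  rcases hi with hi | hi
  · exact hx0 (Submodule.span_singleton_eq_bot.mp hi)
  · have := finrank_span_singleton (K := ZMod p) hx0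
    rw [hi, finrank_top, (ρbar).finrank_eq] at this
    omega

/-- A normal subgroup of the image containing the image of inertia over `p` is everything, since
`E[p]` is unramified elsewhere. -/
private theorem IsInducedFrom.eq_top_of_inertia_mem (h : IsInducedFrom (ρbar) K G) (hp2 : p ≠ 2)
    (hW : W.IsSemistableModel) {A : ValuationSubring QBar} (hA : A.LiesOverPrime p)
    (M : Subgroup (ρbar).ρ.toHomUnits.range) [M.Normal]
    (hM : ∀ σ ∈ A.inertiaSubgroupIn ℚ, (ρbar).ρ.toHomUnits.rangeRestrict σ ∈ M) : M = ⊤ := by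
  set H : Subgroup GQ := M.comap (ρbar).ρ.toHomUnits.rangeRestrict with hH
  obtain ⟨L, hLfin, hL⟩ := (ρbar).factorsThroughFiniteLevel
  have hone : ∀ σ, (ρbar).ρ σ = 1 → σ ∈ H := fun σ hσ => by
    rw [hH, Subgroup.mem_comap, show (ρbar).ρ.toHomUnits.rangeRestrict σ = 1 from
      Subtype.ext (Units.ext hσ)]
    exact M.one_mem
  have htop : H = ⊤ := by
    refine eq_top_of_inertia_le H (Subgroup.isOpen_mono (fun σ hσ => hone σ
      (hL σ fun z hz => (IntermediateField.mem_fixingSubgroup_iff _ _).mp hσ z hz))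
      (IntermediateField.fixingSubgroup_isOpen L)) fun q hq B hB σ hσ => ?_
    by_cases hqp : q = p
    · subst hqp
      obtain ⟨t, rfl⟩ := exists_smul_eq hA hB hq
      have := (inferInstance : H.Normal).conj_mem _ (hM _ (conj_mem_inertia hσ) : _ ∈ H) t
      group at this
      exact this
    · exact hone _ (h.residual_unramified hp2 hW hq hqp hB hσ)
  refine eq_top_iff.mpr ?_
  rintro ⟨_, σ, rfl⟩ -
  exact (htop ▸ Subgroup.mem_top σ : σ ∈ H)

/-- A finite `2`-group generated by conjugates of one involution cannot be the image. -/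
theorem IsInducedFrom.false_of_image_two (h : IsInducedFrom (ρbar) K G) (hp3 : p = 3)
    (hW : W.IsSemistableModel) (hirr : W.ModRepIsIrreducible p)
    {A : ValuationSubring QBar} (hA : A.LiesOverPrime p) {g : GQ}
    (hg : g ∈ A.inertiaSubgroupIn ℚ)
    (hval : ∀ σ ∈ A.inertiaSubgroupIn ℚ, (ρbar).ρ σ = 1 ∨ (ρbar).ρ σ = (ρbar).ρ g) : False := by
  have : Finite (Module.End (ZMod p) (ρbar).V) := finite_end_residualRep hΔ
  set φ := (ρbar).ρ.toHomUnits with hφ
  have : Fact (Nat.Prime 2) := ⟨Nat.prime_two⟩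
  have hnil : Group.IsNilpotent φ.range := (h.isPGroup_two_range hp3).isNilpotent
  by_cases hz : Subgroup.zpowers (φ.rangeRestrict g) = ⊤
  · refine false_of_image_zpowers (hΔ := hΔ) hirr (g := g) ?_ fun σ => ?_
    · rcases hval _ (mul_mem hg hg) with h1 | h1
      · rwa [map_mul] at h1
      · -- `g * g` acting like `g` means that `g` acts trivially
        rw [map_mul] at h1
        have hgu : IsUnit ((ρbar).ρ g) := (φ g).isUnit
        rw [hgu.mul_eq_left] at h1
        rw [h1, mul_one]
    · obtain ⟨i, hi⟩ := Subgroup.mem_zpowers_iff.mp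
        (hz ▸ Subgroup.mem_top (φ.rangeRestrict σ))
      exact ⟨i, congrArg Subtype.val hi⟩
  · -- otherwise `g` lies in a maximal subgroup, which is normal as the image is nilpotent
    obtain ⟨M, hM, hle⟩ :=
      (eq_top_or_exists_le_coatom (Subgroup.zpowers (φ.rangeRestrict g))).resolve_left hz
    have : M.Normal :=
      Subgroup.NormalizerCondition.normal_of_coatom M Group.normalizerCondition_of_isNilpotent hM
    refine hM.1 (h.eq_top_of_inertia_mem (by omega) hW hA M fun σ hσ => ?_)
    rcases hval σ hσ with h1 | h1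
    · exact (show φ.rangeRestrict σ = 1 from Subtype.ext (Units.ext h1)) ▸ M.one_mem
    · exact (show φ.rangeRestrict σ = φ.rangeRestrict g from Subtype.ext (Units.ext h1)) ▸
        hle (Subgroup.mem_zpowers _)

/-! ### The hypothesis -/

/-- **The Taylor–Wiles hypothesis**: for a semistable curve with irreducible `E[p]`, `p` odd, the
representation stays irreducible on every subgroup of index two, over every extension field. -/
theorem residualRep_indexTwo_irreducible (hW : W.IsSemistableModel) (hp2 : p ≠ 2)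
    (hirr : W.ModRepIsIrreducible p) (K : Type) [Field K] [Algebra (ZMod p) K]
    (G : Subgroup GQ) (hG : G.index = 2) (V : Submodule K ((ρbar).baseChange K).V)
    (hV : ∀ σ ∈ G, ∀ x ∈ V, ((ρbar).baseChange K).ρ σ x ∈ V) : V = ⊥ ∨ V = ⊤ := by
  by_contra hne
  simp only [not_or] at hne
  have hp : p.Prime := Fact.out
  have h : IsInducedFrom (ρbar) K G :=
    ⟨hG, baseChange_residualRep_isIrreducible hΔ hp2 hirr K, V, hV, hne.1, hne.2⟩
  have : (W.map (Int.castRingHom ℚ)).IsElliptic := FrobTrace.isElliptic_map_rat hΔ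
  classical
  obtain ⟨A, hA⟩ := exists_liesOverPrime hp
  have hcomp := AtP.inertiaPreservesComponent_of_semistable W hΔ (semistable_not_dvd hW)
  have hred := AtP.reducesTo_qbar (W := W) A
  set C₀ : AddSubgroup (AtP.TorsQBar W p) := hred.E0.comap
    (Submodule.subtype (Submodule.torsionBy ℤ (AtP.PointQBar W) p)).toAddMonoidHom
  set C₁ : AddSubgroup (AtP.TorsQBar W p) := hred.E1.comap
    (Submodule.subtype (Submodule.torsionBy ℤ (AtP.PointQBar W) p)).toAddMonoidHom
  obtain ⟨g, hg, hgG⟩ := h.exists_inertia_notMem hp2 hW hA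
  have habs : ∀ C : AddSubgroup (AtP.TorsQBar W p), C ≠ ⊤ →
      (∀ σ ∈ A.inertiaSubgroupIn ℚ, ∀ x : AtP.TorsQBar W p, σ • x - x ∈ C) → False :=
    fun C hC hCσ => by
      obtain ⟨hp3, hval⟩ := h.absorbing_case hp2 hW hA (C := C) hC hCσ hg hgG
      exact h.false_of_image_two hp3 hW hirr hA hg hval
  by_cases h0 : C₀ = ⊤
  · by_cases h1 : C₁ = ⊤
    · refine h.false_of_forall_inE1 hp2 hW hA fun P hP => ?_
      have hP' : P ∈ Submodule.torsionBy ℤ (AtP.PointQBar W) p := by
        rw [Submodule.mem_torsionBy_iff, natCast_zsmul]; exact hP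
      exact (h1 ▸ AddSubgroup.mem_top _ : (⟨P, hP'⟩ : AtP.TorsQBar W p) ∈ C₁)
    · exact habs C₁ h1 fun σ hσ x => AtP.smul_sub_inE1 hσ
        (show Reduction.InE0 A (AtP.redCurve W A) (x : AtP.PointQBar W) from
          (show x ∈ C₀ from h0 ▸ AddSubgroup.mem_top _))
  · exact habs C₀ h0 fun σ hσ x => hcomp p hp A hA σ hσ x

end Fermat.Agent.EC.Rep
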